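import Mathlib
import Fermat.Agent.MU.Lib.FFL.Unr
import Fermat.Agent.MU.Lib.FFL.FB.PeuMono
import Fermat.Agent.S05.H5.Inertia
import Fermat.Agent.MU.R38.T.Defs
import Fermat.Agent.MU.R38.Spine

section MergeWrap_R38_T_Dichot -- from R38/T/Dichot.lean

/-!
# Row 38, junction J-T → J-D: the dichotomy tame / wild for a Kummer element (helper77)

`P ∣ p` a place of `ℚ̄`, `a` fixed by the inertia group `I` of `P`, `a ≡ 1` modulo the maximal ideal
(the Kummer element of `R38T.PeuKummer`).  Then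

* either `a = α₀ ^ p` with `α₀` fixed by `I` (TAME: every `p`-th root of `a` lies in `K₀(ζ_p)`), or
* `a = 1 + p z` with `z` a unit of the inertia ring (WILD: `FFL.FB.PeuSetting p P ζ α z` for
  every `α` with `α ^ p = a`).

`peu_dichot`, `peu_dichot_setting`, `peu_tame_fix`.
-/

set_option autoImplicit false
set_option linter.unusedSectionVars false

open WeierstrassCurve WeierstrassCurve.Affine

namespace Fermat.Agent.R38T

open Fermat.Agent.FFL Fermat.Agent.FFL.FB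

local notation "Kb" => AlgebraicClosure ℚ
local notation "GK" => (AlgebraicClosure ℚ ≃ₐ[ℚ] AlgebraicClosure ℚ)

variable {p : ℕ} {P : ValuationSubring Kb}

/-- the inertia group lies in the decomposition group -/
theorem dichot_inertia_le (P : ValuationSubring Kb) :
    P.inertiaSubgroupIn ℚ ≤ P.decompositionSubgroup ℚ :=
  fun σ hσ => S05H5.inertiaIn_mem_decomp P σ hσ

/-- **the dichotomy**: an inertia-fixed `1`-unit is a `p`-th power of an inertia-fixed element,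
or of the form `1 + p z` with `z` a unit of the inertia ring. -/
theorem peu_dichot (hp : p.Prime) (hp2 : p ≠ 2) (hP : P.LiesOverPrime p) {a : Kb}
    (ha1 : P.valuation (a - 1) < 1) (hfix : ∀ σ ∈ P.inertiaSubgroupIn ℚ, σ a = a) :
    (∃ α₀ : Kb, α₀ ^ p = a ∧ ∀ σ ∈ P.inertiaSubgroupIn ℚ, σ α₀ = α₀) ∨
      (∃ z : Kb, z ∈ inertiaRing P ∧ z ∉ P.nonunits ∧ a = 1 + (p : Kb) * z) := by
  have hp0 : (p : Kb) ≠ 0 := ar_p_ne_zero hp
  have hvp0 : P.valuation (p : Kb) ≠ 0 := (Valuation.ne_zero_iff _).2 hp0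
  have hvppos : 0 < P.valuation (p : Kb) := zero_lt_iff.2 hvp0
  have hvp : P.valuation (p : Kb) < 1 := ar_val_p_lt hP
  have hU := unrProp p hp P hP
  have hσp : ∀ σ : GK, σ (p : Kb) = (p : Kb) := fun σ => map_natCast σ p
  set x := a - 1 with hx
  have hxfix : ∀ σ ∈ P.inertiaSubgroupIn ℚ, σ x = x := by
    intro σ hσ
    rw [hx, map_sub, map_one, hfix σ hσ]
  have hxm : x ∈ P.nonunits := (P.mem_nonunits_iff).2 ha1
  have hzP : x / (p : Kb) ∈ P := hU x hxm hxfix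
  have hzfix : ∀ σ ∈ P.inertiaSubgroupIn ℚ, σ (x / (p : Kb)) = x / (p : Kb) := by
    intro σ hσ
    rw [map_div₀, hxfix σ hσ, hσp]
  have hax : a = 1 + (p : Kb) * (x / (p : Kb)) := by
    rw [mul_div_cancel₀ _ hp0, hx]; ring
  by_cases hzu : x / (p : Kb) ∈ P.nonunits
  · -- tame
    left
    have hz2 : x / (p : Kb) / (p : Kb) ∈ P := hU _ hzu hzfix
    have hvx : P.valuation x ≤ P.valuation (p : Kb) ^ 2 := by
      have h1 := (P.valuation_le_one_iff _).2 hz2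
      rw [map_div₀, map_div₀, div_div, div_le_iff₀ (mul_pos hvppos hvppos), one_mul] at h1
      rwa [pow_two]
    have hp3 : 3 ≤ p := by
      have := hp.two_le
      omega
    have hxnu : x ^ (p - 1) / (p : Kb) ^ p ∈ P.nonunits := by
      rw [ValuationSubring.mem_nonunits_iff, map_div₀, map_pow, map_pow,
        div_lt_iff₀ (pow_pos hvppos p), one_mul]
      calc P.valuation x ^ (p - 1) ≤ (P.valuation (p : Kb) ^ 2) ^ (p - 1) :=
            pow_le_pow_left₀ zero_le hvx _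
        _ = P.valuation (p : Kb) ^ (2 * (p - 1)) := by rw [← pow_mul]
        _ < P.valuation (p : Kb) ^ p :=
            pow_lt_pow_right_of_lt_one₀ hvppos hvp (by omega)
    obtain ⟨y, -, hyfix, hy, -⟩ := exists_pthRoot_fixed hp hP (P.inertiaSubgroupIn ℚ)
      (dichot_inertia_le P) hxfix hxnu
    refine ⟨y, ?_, hyfix⟩
    rw [hy, hx]; ring
  · -- wild
    right
    exact ⟨x / (p : Kb), ⟨hzP, hzfix⟩, hzu, hax⟩

/-- WILD case as a `PeuSetting`. -/
theorem peu_dichot_setting (hp : p.Prime) (hp2 : p ≠ 2) (hP : P.LiesOverPrime p) {a : Kb}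
    (ha1 : P.valuation (a - 1) < 1) (hfix : ∀ σ ∈ P.inertiaSubgroupIn ℚ, σ a = a) :
    (∃ α₀ : Kb, α₀ ^ p = a ∧ ∀ σ ∈ P.inertiaSubgroupIn ℚ, σ α₀ = α₀) ∨
      (∃ z : Kb, ∀ ζ α : Kb, IsPrimitiveRoot ζ p → α ^ p = a → PeuSetting p P ζ α z) := by
  rcases peu_dichot hp hp2 hP ha1 hfix with h | ⟨z, hz, hzu, haz⟩
  · exact Or.inl h
  · exact Or.inr ⟨z, fun ζ α hζ hα =>
      { hp := hp, hp2 := hp2, hP := hP, hζ := hζ, hz := hz, hzu := hzu, hα := by rw [hα, haz] }⟩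

/-- TAME case: if `a = α₀ ^ p` with `α₀` fixed by inertia, then an inertia element fixing `ζ_p`
fixes every `p`-th root of `a`. -/
theorem peu_tame_fix (hp : p.Prime) {a α₀ : Kb} (hα₀ : α₀ ^ p = a) (ha0 : a ≠ 0)
    {σ : GK} (hσ₀ : σ α₀ = α₀) {ζ α : Kb} (hζ : IsPrimitiveRoot ζ p) (hσζ : σ ζ = ζ)
    (hα : α ^ p = a) : σ α = α := by
  have hα₀0 : α₀ ≠ 0 := by
    rintro rfl
    rw [zero_pow hp.ne_zero] at hα₀
    exact ha0 hα₀.symm
  have h1 : (α / α₀) ^ p = 1 := by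
    rw [div_pow, hα, hα₀, div_self ha0]
  have : NeZero p := ⟨hp.ne_zero⟩
  obtain ⟨i, -, hi⟩ := hζ.eq_pow_of_pow_eq_one h1
  have h2 : α = ζ ^ i * α₀ := by
    rw [hi, div_mul_cancel₀ _ hα₀0]
  rw [h2, map_mul, map_pow, hσζ, hσ₀]

/-- **the junction form**: `PeuKummer` gives either the TAME case (every inertia element fixing
`ζ_p` acts trivially on `W[p]`) or the WILD case (a `PeuSetting` whose group `peuStab` acts
trivially on `W[p]`). -/
theorem peuKummer_dichot (W : WeierstrassCurve ℚ) (hp : p.Prime) (hp2 : p ≠ 2)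
    (hP : P.LiesOverPrime p) (h : PeuKummer W p P) :
    (∀ ζ : Kb, IsPrimitiveRoot ζ p → ∀ σ ∈ P.inertiaSubgroupIn ℚ, σ ζ = ζ →
        ∀ x : (W⁄(AlgebraicClosure ℚ)).Point, p • x = 0 → σ • x = x) ∨
      (∃ z : Kb, ∀ ζ α : Kb, IsPrimitiveRoot ζ p → α ^ p = 1 + (p : Kb) * z →
        PeuSetting p P ζ α z ∧
          ∀ σ ∈ P.inertiaSubgroupIn ℚ, σ ζ = ζ → σ α = α →
            ∀ x : (W⁄(AlgebraicClosure ℚ)).Point, p • x = 0 → σ • x = x) := by
  obtain ⟨a, hau, ha1, hfix, hK⟩ := h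
  have ha0 : a ≠ 0 := by
    rintro rfl
    rw [map_zero] at hau
    exact zero_ne_one hau
  rcases peu_dichot hp hp2 hP ha1 hfix with ⟨α₀, hα₀, hα₀fix⟩ | ⟨z, hz, hzu, haz⟩
  · left
    intro ζ hζ σ hσ hσζ x hx
    exact hK α₀ ζ hα₀ hζ σ hσ hσζ (hα₀fix σ hσ) x hx
  · right
    refine ⟨z, fun ζ α hζ hα => ⟨?_, ?_⟩⟩
    · exact { hp := hp, hp2 := hp2, hP := hP, hζ := hζ, hz := hz, hzu := hzu, hα := hα }
    · intro σ hσ hσζ hσα x hx
      exact hK α ζ (by rw [hα, haz]) hζ σ hσ hσζ hσα x hx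

end Fermat.Agent.R38T
end MergeWrap_R38_T_Dichot

section MergeWrap_R38_D_Defs -- from R38/D/Defs.lean

set_option autoImplicit false
set_option linter.style.haveILetI false
set_option linter.unusedSectionVars false
set_option linter.unusedVariables false
set_option synthInstance.maxHeartbeats 400000
set_option maxHeartbeats 1000000

noncomputable section

namespace Fermat.Agent.R38

open ModularCurve AlgebraicCurve Fermat.Agent.F3 Fermat.Agent.F3G Fermat.Agent.F3I2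
  Fermat.Agent.GaussInt Fermat.Agent.AtkinLehner Fermat.Agent.Deuring Fermat.Agent.RR
  Fermat.Agent.BadRed Fermat.Agent.EKp Fermat.Agent.FFL Fermat.Agent.FFL.FB

local notation "Qb" => AlgebraicClosure ℚ
local notation "GQ" => (AlgebraicClosure ℚ ≃ₐ[ℚ] AlgebraicClosure ℚ)

/-- **J-D at an auxiliary level** (`4 ∣ D.R`), for every `p`-torsion class. -/
def SpJDAux : Prop :=
  ∀ (D : ALData) [NeZero D.Q] [NeZero D.R] [NeZero (D.Q * D.R)]
    (A : ValuationSubring Qb) (hq : D.Q.Prime) (hA : A.LiesOverPrime D.Q) (hqR : ¬ D.Q ∣ D.R)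
    [Fact D.Q.Prime] [CharP (IsLocalRing.ResidueField A) D.Q]
    [PerfectRing (IsLocalRing.ResidueField A) D.Q],
    5 ≤ D.Q → 4 ∣ D.R →
    ∀ (y : JZero (D.Q * D.R)), D.Q • y = 0 → spKumStab D.Q A y → spUnip D.Q A y →
      ∀ (E : Divisor.degZero (K := Qb) (F := FBar (D.Q * D.R))) (g : FBar (D.Q * D.R)),
        spIsKumGen D.Q y E g → spSlopeInt D A hq hA hqR g

/-- **MOD-WILD**: the wild case at an auxiliary level. -/
def SpDModWild : Prop :=
  ∀ (D : ALData) [NeZero D.Q] [NeZero D.R] [NeZero (D.Q * D.R)]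
    (A : ValuationSubring Qb) (hq : D.Q.Prime) (hA : A.LiesOverPrime D.Q) (hqR : ¬ D.Q ∣ D.R)
    [Fact D.Q.Prime] [CharP (IsLocalRing.ResidueField A) D.Q]
    [PerfectRing (IsLocalRing.ResidueField A) D.Q],
    5 ≤ D.Q → 4 ∣ D.R →
    ∀ (ζ α z : Qb), PeuSetting D.Q A ζ α z →
    ∀ (y : JZero (D.Q * D.R)), D.Q • y = 0 → (∀ σ ∈ peuStab A ζ α, σ • y = y) →
      spUnip D.Q A y →
      ∃ (E : Divisor.degZero (K := Qb) (F := FBar (D.Q * D.R))) (g : FBar (D.Q * D.R)),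
        spIsKumGen D.Q y E g ∧ spSlopeInt D A hq hA hqR g

/-- **MOD-TAME**: the tame case at an auxiliary level. -/
def SpDModTame : Prop :=
  ∀ (D : ALData) [NeZero D.Q] [NeZero D.R] [NeZero (D.Q * D.R)]
    (A : ValuationSubring Qb) (hq : D.Q.Prime) (hA : A.LiesOverPrime D.Q) (hqR : ¬ D.Q ∣ D.R)
    [Fact D.Q.Prime] [CharP (IsLocalRing.ResidueField A) D.Q]
    [PerfectRing (IsLocalRing.ResidueField A) D.Q],
    5 ≤ D.Q → 4 ∣ D.R →
    ∀ (ζ : Qb), IsPrimitiveRoot ζ D.Q →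
    ∀ (y : JZero (D.Q * D.R)), D.Q • y = 0 →
      (∀ σ ∈ A.inertiaSubgroupIn ℚ, σ ζ = ζ → σ • y = y) →
      ∃ (E : Divisor.degZero (K := Qb) (F := FBar (D.Q * D.R))) (g : FBar (D.Q * D.R)),
        spIsKumGen D.Q y E g ∧ spSlopeInt D A hq hA hqR g

/-- **GEN-INDEP**: (INT) does not depend on the Kummer generator. -/
def SpDGenIndep : Prop :=
  ∀ (D : ALData) [NeZero D.Q] [NeZero D.R] [NeZero (D.Q * D.R)]
    (A : ValuationSubring Qb) (hq : D.Q.Prime) (hA : A.LiesOverPrime D.Q) (hqR : ¬ D.Q ∣ D.R)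
    [Fact D.Q.Prime] [CharP (IsLocalRing.ResidueField A) D.Q]
    [PerfectRing (IsLocalRing.ResidueField A) D.Q]
    (y : JZero (D.Q * D.R))
    (E E' : Divisor.degZero (K := Qb) (F := FBar (D.Q * D.R))) (g g' : FBar (D.Q * D.R)),
    spIsKumGen D.Q y E g → spIsKumGen D.Q y E' g' →
      spSlopeInt D A hq hA hqR g → spSlopeInt D A hq hA hqR g'

/-- **PULL**: J-D at the auxiliary levels implies J-D. -/
def SpDPull : Prop := SpJDAux → SpJD

/-- the assembly at an auxiliary level: the dichotomy tame / wild. -/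
theorem spJDAux_of (hW : SpDModWild) (hT : SpDModTame) (hG : SpDGenIndep) : SpJDAux := by
  intro D _ _ _ A hq hA hqR _ _ _ h5 h4 y hpy hKS hU E g hKG
  obtain ⟨a, hau, ha1, hfix, hK⟩ := hKS
  have hp2 : D.Q ≠ 2 := by omega
  obtain ⟨ζ, hζ⟩ : ∃ ζ : Qb, IsPrimitiveRoot ζ D.Q :=
    HasEnoughRootsOfUnity.exists_primitiveRoot Qb D.Q
  rcases Fermat.Agent.R38T.peu_dichot_setting hq hp2 hA ha1 hfix with
    ⟨α₀, hα₀, hα₀fix⟩ | ⟨z, hz⟩
  · -- tame
    have hfixy : ∀ σ ∈ A.inertiaSubgroupIn ℚ, σ ζ = ζ → σ • y = y :=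
      fun σ hσ hσζ => hK α₀ ζ hα₀ hζ σ hσ hσζ (hα₀fix σ hσ)
    obtain ⟨E', g', hK', hS'⟩ := hT D A hq hA hqR h5 h4 ζ hζ y hpy hfixy
    exact hG D A hq hA hqR y E' E g' g hK' hKG hS'
  · -- wild
    obtain ⟨α, hα⟩ : ∃ α : Qb, α ^ D.Q = a :=
      IsAlgClosed.exists_pow_nat_eq a hq.pos
    have S := hz ζ α hζ hα
    have hfixy : ∀ σ ∈ peuStab A ζ α, σ • y = y := by
      intro σ hσ
      obtain ⟨h1, h2, h3⟩ := mem_peuStab.1 hσ
      exact hK α ζ hα hζ σ h1 h2 h3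
    obtain ⟨E', g', hK', hS'⟩ := hW D A hq hA hqR h5 h4 ζ α z S y hpy hfixy hU
    exact hG D A hq hA hqR y E' E g' g hK' hKG hS'

/-- **the assembly of J-D**. -/
theorem spJD_of (hW : SpDModWild) (hT : SpDModTame) (hG : SpDGenIndep) (hP : SpDPull) : SpJD :=
  hP (spJDAux_of hW hT hG)

end Fermat.Agent.R38
end
end MergeWrap_R38_D_Defs
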