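import Mathlib
import Fermat.Agent.MU.R38.SpineDefs
import Fermat.Agent.MU.R38.D.Defs

section MergeWrap_R38_D_GenIndep -- from R38/D/GenIndep.lean

set_option autoImplicit false
set_option linter.style.haveILetI false
set_option linter.unusedSectionVars false
set_option synthInstance.maxHeartbeats 400000

noncomputable section

namespace Fermat.Agent.R38

open ModularCurve AlgebraicCurve Fermat.Agent.F3 Fermat.Agent.F3G Fermat.Agent.F3I2
  Fermat.Agent.GaussInt Fermat.Agent.AtkinLehner Fermat.Agent.Deuring Fermat.Agent.RR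
  Fermat.Agent.BadRed Fermat.Agent.EKp

local notation "Qb" => AlgebraicClosure ℚ

section Abstract

variable {K F k Fk : Type*} [Field K] [Field F] [Algebra K F]
  [Field k] [Field Fk] [Algebra k Fk]

/-- a function with trivial divisor is a nonzero constant. -/
theorem genIndep_exists_const (h : IsRRField K F) {x : F} (hx : x ≠ 0)
    (hord : ∀ v : Place K F, v.ord x = 0) : ∃ c : K, c ≠ 0 ∧ x = algebraMap K F c := by
  have hmem : x ∈ riemannRochSpace (0 : Divisor K F) := by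
    rw [mem_riemannRochSpace_iff]
    intro v
    right
    rw [hord v]
    simp
  obtain ⟨c, hc⟩ := (mem_riemannRochSpace_zero_iff h x).mp hmem
  refine ⟨c, ?_, hc.symm⟩
  rintro rfl
  rw [map_zero] at hc
  exact hx hc.symm

/-- two Kummer generators of the same class differ by a constant and a `p`-th power. -/
theorem genIndep_exists_eq (h : IsRRField K F) {p : ℕ}
    {E E' : Divisor.degZero (K := K) (F := F)} {g g' : F}
    (hg : IsRootDiv p g E) (hg' : IsRootDiv p g' E') (hE : Pic0.mk E = Pic0.mk E') :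
    ∃ (c : K) (f : F), c ≠ 0 ∧ f ≠ 0 ∧ g' = algebraMap K F c * g * f ^ p := by
  have h1 : -E + E' ∈ (Divisor.principal (K := K) (F := F)).addSubgroupOf
      (Divisor.degZero (K := K) (F := F)) := QuotientAddGroup.eq.mp hE
  rw [AddSubgroup.mem_addSubgroupOf] at h1
  obtain ⟨f, hf0, hf⟩ := h1
  have hgf : g * f ^ p ≠ 0 := mul_ne_zero hg.1 (pow_ne_zero _ hf0)
  have hx0 : g' / (g * f ^ p) ≠ 0 := div_ne_zero hg'.1 hgf
  obtain ⟨c, hc0, hc⟩ := genIndep_exists_const h hx0 (by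
    intro v
    rw [div_eq_mul_inv, v.ord_mul hg'.1 (inv_ne_zero hgf), v.ord_inv,
      v.ord_mul hg.1 (pow_ne_zero _ hf0), ← zpow_natCast, v.ord_zpow, ← hg'.2 v, ← hg.2 v,
      ← hf v]
    have : ((-E + E' : Divisor.degZero (K := K) (F := F)) : Divisor K F) v
        = -(E : Divisor K F) v + (E' : Divisor K F) v := by
      rw [AddSubgroup.coe_add, AddSubgroup.coe_neg, Finsupp.add_apply, Finsupp.neg_apply]
    rw [this]
    ring)
  refine ⟨c, f, hc0, hf0, ?_⟩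
  rw [← hc, mul_assoc, div_mul_cancel₀ _ hgf]

/-- every `g ≠ 0` has a normalised reduction. -/
theorem genIndep_exists_red (S : ValSetup K F k Fk) {g : F} (hg : g ≠ 0) :
    ∃ c₁ : K, c₁ ≠ 0 ∧ g / algebraMap K F c₁ ∈ S.Ov ∧ S.red (g / algebraMap K F c₁) ≠ 0 := by
  obtain ⟨c₁, hc₁, hg1, hg1'⟩ := S.scale g hg
  have hA1 : algebraMap K F c₁ ≠ 0 := (map_ne_zero _).mpr hc₁
  refine ⟨c₁, hc₁, by rw [div_eq_mul_inv]; exact hg1, ?_⟩
  rw [div_eq_mul_inv]
  exact S.red_ne_zero hg1 hg1' (mul_ne_zero hg (inv_ne_zero hA1))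

/-- the reduction formula for `g' = c · g · f ^ p`: ANY two normalised reductions `r'` of `g'` and
`r` of `g` satisfy `r' = κ · r · r_f ^ p`. -/
theorem genIndep_red (S : ValSetup K F k Fk) {g f g' : F} {c : K} {p : ℕ}
    (hc : c ≠ 0) (hg : g ≠ 0) (hf : f ≠ 0) (hg' : g' = algebraMap K F c * g * f ^ p)
    {c' : K} (hc' : c' ≠ 0) (hmem : g' / algebraMap K F c' ∈ S.Ov)
    (hr : S.red (g' / algebraMap K F c') ≠ 0)
    {c₁ : K} (hc₁ : c₁ ≠ 0) (hmem₁ : g / algebraMap K F c₁ ∈ S.Ov)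
    (hr₁ : S.red (g / algebraMap K F c₁) ≠ 0) :
    ∃ (r_f : Fk) (κ : k), r_f ≠ 0 ∧ κ ≠ 0 ∧
      S.red (g' / algebraMap K F c') =
        algebraMap k Fk κ * S.red (g / algebraMap K F c₁) * r_f ^ p := by
  obtain ⟨c₂, hc₂, hf1, hf1'⟩ := S.scale f hf
  have hA1 : algebraMap K F c₁ ≠ 0 := (map_ne_zero _).mpr hc₁
  have hA2 : algebraMap K F c₂ ≠ 0 := (map_ne_zero _).mpr hc₂
  have hA' : algebraMap K F c' ≠ 0 := (map_ne_zero _).mpr hc'
  have hAc : algebraMap K F c ≠ 0 := (map_ne_zero _).mpr hc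
  obtain ⟨u, hu⟩ : ∃ u : F, u = g / algebraMap K F c₁ := ⟨_, rfl⟩
  obtain ⟨w, hw⟩ : ∃ w : F, w = f * (algebraMap K F c₂)⁻¹ := ⟨_, rfl⟩
  rw [← hu] at hmem₁ hr₁ ⊢
  rw [← hw] at hf1 hf1'
  have hu0 : u ≠ 0 := by rw [hu]; exact div_ne_zero hg hA1
  have hw0 : w ≠ 0 := by rw [hw]; exact mul_ne_zero hf (inv_ne_zero hA2)
  have hg1' : u⁻¹ ∈ S.Ov := by
    by_contra hcon
    exact hr₁ ((S.red_eq_zero_iff hmem₁ hu0).mpr hcon)
  have hg'0 : g' ≠ 0 := by
    rw [hg']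
    exact mul_ne_zero (mul_ne_zero hAc hg) (pow_ne_zero _ hf)
  have hx0 : g' / algebraMap K F c' ≠ 0 := div_ne_zero hg'0 hA'
  have hxinv : (g' / algebraMap K F c')⁻¹ ∈ S.Ov := by
    by_contra hcon
    exact hr ((S.red_eq_zero_iff hmem hx0).mpr hcon)
  -- the constant
  obtain ⟨d, hd⟩ : ∃ d : K, d = c * c₁ * c₂ ^ p / c' := ⟨_, rfl⟩
  have hd0 : d ≠ 0 := by
    rw [hd]
    exact div_ne_zero (mul_ne_zero (mul_ne_zero hc hc₁) (pow_ne_zero _ hc₂)) hc'
  have hdF : algebraMap K F d ≠ 0 := (map_ne_zero _).mpr hd0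
  have hxeq : g' / algebraMap K F c' = algebraMap K F d * u * w ^ p := by
    have hc2p : (algebraMap K F c₂) ^ p ≠ 0 := pow_ne_zero _ hA2
    rw [hd, hu, hw, hg', mul_pow, inv_pow]
    simp only [map_div₀, map_mul, map_pow]
    obtain ⟨X, hX⟩ : ∃ X : F, X = (algebraMap K F c₂) ^ p := ⟨_, rfl⟩
    obtain ⟨Y, hY⟩ : ∃ Y : F, Y = f ^ p := ⟨_, rfl⟩
    rw [← hX] at hc2p ⊢
    rw [← hY]
    field_simp
  obtain ⟨wp, hwp⟩ : ∃ wp : F, wp = w ^ p := ⟨_, rfl⟩
  have hwp0 : wp ≠ 0 := by rw [hwp]; exact pow_ne_zero _ hw0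
  have hdeq : algebraMap K F d = (g' / algebraMap K F c') * u⁻¹ * (w⁻¹) ^ p := by
    rw [hxeq, inv_pow, ← hwp]
    field_simp
  have hdinv : (algebraMap K F d)⁻¹ = (g' / algebraMap K F c')⁻¹ * u * w ^ p := by
    rw [hxeq, ← hwp]
    field_simp
  have hdO : algebraMap K F d ∈ S.Ov := by
    rw [hdeq]
    exact mul_mem (mul_mem hmem hg1') (pow_mem hf1' p)
  have hdO' : (algebraMap K F d)⁻¹ ∈ S.Ov := by
    rw [hdinv]
    exact mul_mem (mul_mem hxinv hmem₁) (pow_mem hf1 p)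
  have hdA : d ∈ S.A := (S.mem_Ov_iff d).mp hdO
  refine ⟨S.red w, S.res ⟨d, hdA⟩, ?_, ?_, ?_⟩
  · exact S.red_ne_zero hf1 hf1' hw0
  · intro h0
    have h1 := S.red_ne_zero hdO hdO' hdF
    rw [S.red_algebraMap hdA, h0, map_zero] at h1
    exact h1 rfl
  · rw [hxeq, S.red_mul (mul_mem hdO hmem₁) (pow_mem hf1 p), S.red_mul hdO hmem₁,
      S.red_pow hf1, S.red_algebraMap hdA]

/-- orders of the reductions: `ord r' = ord r + p · ord r_f`. -/
theorem genIndep_ord (Q : Place k Fk) {r r_f : Fk} {κ : k} {p : ℕ} (hr : r ≠ 0) (hrf : r_f ≠ 0)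
    (hκ : κ ≠ 0) : Q.ord (algebraMap k Fk κ * r * r_f ^ p) = Q.ord r + (p : ℤ) * Q.ord r_f := by
  rw [Q.ord_mul (mul_ne_zero ((map_ne_zero _).mpr hκ) hr) (pow_ne_zero _ hrf),
    Q.ord_mul ((map_ne_zero _).mpr hκ) hr, rootClass_ord_algebraMap Q hκ, zero_add,
    ← zpow_natCast, Q.ord_zpow]

end Abstract

section Modular

variable (D : ALData) [NeZero D.Q] [NeZero D.R] [NeZero (D.Q * D.R)]
  (A : ValuationSubring Qb) (hq : D.Q.Prime) (hA : A.LiesOverPrime D.Q) (hqR : ¬ D.Q ∣ D.R)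
  [Fact D.Q.Prime] [CharP (IsLocalRing.ResidueField A) D.Q]
  [PerfectRing (IsLocalRing.ResidueField A) D.Q]

local notation "kA" => IsLocalRing.ResidueField A

/-- every `g ≠ 0` has a normalised reduction at `v_∞`. -/
theorem genIndep_exists_redInf {g : FBar (D.Q * D.R)} (hg : g ≠ 0) :
    ∃ r, spIsRedInf D A hq hA hqR g r := by
  obtain ⟨c₁, hc₁, hmem, hr⟩ := genIndep_exists_red (kpS D A hq hA hqR) hg
  exact ⟨_, c₁, hc₁, hmem, rfl, hr⟩

/-- every `g ≠ 0` has a normalised reduction at `v_0`. -/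
theorem genIndep_exists_redZero {g : FBar (D.Q * D.R)} (hg : g ≠ 0) :
    ∃ r, spIsRedZero D A hq hA hqR g r :=
  genIndep_exists_redInf D A hq hA hqR ((map_ne_zero (atkinLehner D)).mpr hg)

/-- normalised reductions at `v_∞` of `g` and of `g' = c · g · f ^ p`. -/
theorem genIndep_redInf_of_eq {g f g' : FBar (D.Q * D.R)} {c : Qb} {p : ℕ} (hc : c ≠ 0)
    (hg : g ≠ 0) (hf : f ≠ 0) (hg' : g' = algebraMap Qb (FBar (D.Q * D.R)) c * g * f ^ p)
    {r r' : modularFunctionFieldFullC kA D.R}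
    (hr : spIsRedInf D A hq hA hqR g r) (hr' : spIsRedInf D A hq hA hqR g' r') :
    ∃ (r_f : modularFunctionFieldFullC kA D.R) (κ : kA), r_f ≠ 0 ∧ κ ≠ 0 ∧
      r' = algebraMap kA (modularFunctionFieldFullC kA D.R) κ * r * r_f ^ p := by
  obtain ⟨c₁, hc₁, hmem₁, rfl, hr₁⟩ := hr
  obtain ⟨c', hc', hmem', rfl, hr₂⟩ := hr'
  exact genIndep_red (kpS D A hq hA hqR) hc hg hf hg' hc' hmem' hr₂ hc₁ hmem₁ hr₁

/-- normalised reductions at `v_0` of `g` and of `g' = c · g · f ^ p`. -/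
theorem genIndep_redZero_of_eq {g f g' : FBar (D.Q * D.R)} {c : Qb} {p : ℕ} (hc : c ≠ 0)
    (hg : g ≠ 0) (hf : f ≠ 0) (hg' : g' = algebraMap Qb (FBar (D.Q * D.R)) c * g * f ^ p)
    {r r' : modularFunctionFieldFullC kA D.R}
    (hr : spIsRedZero D A hq hA hqR g r) (hr' : spIsRedZero D A hq hA hqR g' r') :
    ∃ (r_f : modularFunctionFieldFullC kA D.R) (κ : kA), r_f ≠ 0 ∧ κ ≠ 0 ∧
      r' = algebraMap kA (modularFunctionFieldFullC kA D.R) κ * r * r_f ^ p :=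
  genIndep_redInf_of_eq D A hq hA hqR (f := atkinLehner D f) hc
    ((map_ne_zero (atkinLehner D)).mpr hg) ((map_ne_zero (atkinLehner D)).mpr hf)
    (by rw [hg', map_mul, map_mul, map_pow, AlgEquiv.commutes]) hr hr'

variable {y : JZero (D.Q * D.R)} {E E' : Divisor.degZero (K := Qb) (F := FBar (D.Q * D.R))}
  {g g' : FBar (D.Q * D.R)}

/-- two Kummer generators of the same class: `g' = c · g · f ^ p`. -/
theorem genIndep_kumGen_eq {p : ℕ} (h : spIsKumGen p y E g) (h' : spIsKumGen p y E' g') :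
    ∃ (c : Qb) (f : FBar (D.Q * D.R)), c ≠ 0 ∧ f ≠ 0 ∧
      g' = algebraMap Qb (FBar (D.Q * D.R)) c * g * f ^ p :=
  genIndep_exists_eq (Fermat.Agent.RRMod.isRRField_bar (D.Q * D.R)) h.1 h'.1 (h.2.trans h'.2.symm)

/-- **GEN-INDEP**: `(INT)` does not depend on the Kummer generator. -/
theorem genIndep_slopeInt (h : spIsKumGen D.Q y E g) (h' : spIsKumGen D.Q y E' g')
    (hS : spSlopeInt D A hq hA hqR g) : spSlopeInt D A hq hA hqR g' := by
  obtain ⟨c, f, hc, hf, hgg⟩ := genIndep_kumGen_eq D h h'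
  intro r' hr' i j
  obtain ⟨r, hr⟩ := genIndep_exists_redInf D A hq hA hqR h.1.1
  obtain ⟨r_f, κ, hrf, hκ, rfl⟩ := genIndep_redInf_of_eq D A hq hA hqR hc h.1.1 hf hgg hr hr'
  have hr0 : r ≠ 0 := by
    obtain ⟨_, _, _, rfl, h0⟩ := hr
    exact h0
  rw [genIndep_ord i.1 hr0 hrf hκ, genIndep_ord j.1 hr0 hrf hκ]
  obtain ⟨m, hm⟩ := hS r hr i j
  refine ⟨m + ((kpEps D A hq hA hqR j : ℤ) * i.1.ord r_f
    - (kpEps D A hq hA hqR i : ℤ) * j.1.ord r_f), ?_⟩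
  linear_combination hm

/-- the same for `spDivZero`. -/
theorem genIndep_divZero (h : spIsKumGen D.Q y E g) (h' : spIsKumGen D.Q y E' g')
    (hS : spDivZero D A hq hA hqR g) : spDivZero D A hq hA hqR g' := by
  obtain ⟨c, f, hc, hf, hgg⟩ := genIndep_kumGen_eq D h h'
  rintro r' (hr' | hr') Q
  · obtain ⟨r, hr⟩ := genIndep_exists_redInf D A hq hA hqR h.1.1
    obtain ⟨r_f, κ, hrf, hκ, rfl⟩ := genIndep_redInf_of_eq D A hq hA hqR hc h.1.1 hf hgg hr hr'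
    have hr0 : r ≠ 0 := by
      obtain ⟨_, _, _, rfl, h0⟩ := hr
      exact h0
    rw [genIndep_ord Q hr0 hrf hκ]
    exact dvd_add (hS r (Or.inl hr) Q) (dvd_mul_right _ _)
  · obtain ⟨r, hr⟩ := genIndep_exists_redZero D A hq hA hqR h.1.1
    obtain ⟨r_f, κ, hrf, hκ, rfl⟩ := genIndep_redZero_of_eq D A hq hA hqR hc h.1.1 hf hgg hr hr'
    have hr0 : r ≠ 0 := by
      obtain ⟨_, _, _, rfl, h0⟩ := hr
      exact h0
    rw [genIndep_ord Q hr0 hrf hκ]
    exact dvd_add (hS r (Or.inr hr) Q) (dvd_mul_right _ _)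

/-- `r` is not a `p`-th power ⇒ `κ · r · r_f ^ p` is not a `p`-th power (`k` perfect). -/
theorem genIndep_not_pow {r r_f : modularFunctionFieldFullC kA D.R} {κ : kA}
    (hrf : r_f ≠ 0) (hκ : κ ≠ 0) (hr : ∀ x, r ≠ x ^ D.Q) :
    ∀ x, algebraMap kA (modularFunctionFieldFullC kA D.R) κ * r * r_f ^ D.Q ≠ x ^ D.Q := by
  intro x hx
  obtain ⟨κ₀, hκ₀⟩ := surjective_frobenius kA D.Q κ
  rw [frobenius_def] at hκ₀
  have hκ₀0 : κ₀ ≠ 0 := by
    rintro rfl
    rw [zero_pow (NeZero.ne D.Q)] at hκ₀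
    exact hκ hκ₀.symm
  have hK0 : algebraMap kA (modularFunctionFieldFullC kA D.R) κ₀ ≠ 0 :=
    (map_ne_zero _).mpr hκ₀0
  apply hr (x / (algebraMap kA (modularFunctionFieldFullC kA D.R) κ₀ * r_f))
  rw [div_pow, ← hx, mul_pow, ← map_pow, hκ₀]
  have h1 : algebraMap kA (modularFunctionFieldFullC kA D.R) κ ≠ 0 := (map_ne_zero _).mpr hκ
  have h2 : r_f ^ D.Q ≠ 0 := pow_ne_zero _ hrf
  field_simp

/-- the same for `spPsiNe`. -/
theorem genIndep_psiNe (h : spIsKumGen D.Q y E g) (h' : spIsKumGen D.Q y E' g')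
    (hS : spPsiNe D A hq hA hqR g) : spPsiNe D A hq hA hqR g' := by
  obtain ⟨c, f, hc, hf, hgg⟩ := genIndep_kumGen_eq D h h'
  rcases hS with ⟨r, hr, hnp⟩ | ⟨r, hr, hnp⟩
  · left
    obtain ⟨r', hr'⟩ := genIndep_exists_redInf D A hq hA hqR h'.1.1
    refine ⟨r', hr', ?_⟩
    obtain ⟨r_f, κ, hrf, hκ, rfl⟩ := genIndep_redInf_of_eq D A hq hA hqR hc h.1.1 hf hgg hr hr'
    exact genIndep_not_pow D A hrf hκ hnp
  · right
    obtain ⟨r', hr'⟩ := genIndep_exists_redZero D A hq hA hqR h'.1.1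
    refine ⟨r', hr', ?_⟩
    obtain ⟨r_f, κ, hrf, hκ, rfl⟩ := genIndep_redZero_of_eq D A hq hA hqR hc h.1.1 hf hgg hr hr'
    exact genIndep_not_pow D A hrf hκ hnp

end Modular

/-- **GEN-INDEP**, in the exact shape of `SpDGenIndep` (`R38/D/Defs.lean`):
`theorem spDGenIndep : SpDGenIndep := genIndep_all`. -/
theorem genIndep_all :
    ∀ (D : ALData) [NeZero D.Q] [NeZero D.R] [NeZero (D.Q * D.R)]
      (A : ValuationSubring Qb) (hq : D.Q.Prime) (hA : A.LiesOverPrime D.Q) (hqR : ¬ D.Q ∣ D.R)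
      [Fact D.Q.Prime] [CharP (IsLocalRing.ResidueField A) D.Q]
      [PerfectRing (IsLocalRing.ResidueField A) D.Q]
      (y : JZero (D.Q * D.R))
      (E E' : Divisor.degZero (K := Qb) (F := FBar (D.Q * D.R))) (g g' : FBar (D.Q * D.R)),
      spIsKumGen D.Q y E g → spIsKumGen D.Q y E' g' →
        spSlopeInt D A hq hA hqR g → spSlopeInt D A hq hA hqR g' :=
  fun D _ _ _ A hq hA hqR _ _ _ _ _ _ _ _ h h' hS => genIndep_slopeInt D A hq hA hqR h h' hS

end Fermat.Agent.R38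
end
end MergeWrap_R38_D_GenIndep

section MergeWrap_R38_D_GenIndepFinal -- from R38/D/GenIndepFinal.lean

set_option autoImplicit false

namespace Fermat.Agent.R38

/-- **GEN-INDEP**: (INT) does not depend on the Kummer generator. -/
theorem spDGenIndep : SpDGenIndep := genIndep_all

end Fermat.Agent.R38
end MergeWrap_R38_D_GenIndepFinal
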