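import Mathlib
import Fermat.Agent.MU.Lib.BadRed.Mod.ValZero
import Fermat.Agent.MU.Lib.FF.PullJZero
import Fermat.Agent.MU.R38.SpineDefs
import Fermat.Agent.MU.Lib.BadRed.Mod.GaussSetup
import Fermat.Agent.MU.Lib.RedTr.Basic
import Fermat.Agent.MU.Lib.RedTr.FundIdK
import Fermat.Agent.MU.Lib.RedTr.ModularCompat
import Fermat.Agent.MU.Lib.RR.OfModularCFinal
import Fermat.Agent.MU.R38.P.Eps
import Fermat.Agent.MU.R38.D.Defs

section MergeWrap_R38_P_LevelAL -- from R38/P/LevelAL.lean

set_option autoImplicit false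
set_option linter.unusedVariables false
set_option linter.unusedSectionVars false
set_option linter.style.haveILetI false

noncomputable section

namespace Fermat.Agent.R38

open Fermat.Agent.AtkinLehner Fermat.Agent.S24 Fermat.Agent.Deuring Fermat.Agent.BadRed
  ModularCurve

/-- `F_N ⊆ F_M` for `N ∣ M` (generators `j(q^d)`, `d ∣ N`). -/
theorem r38_fbar_le_of_dvd {N M : ℕ} (h : N ∣ M) :
    modularFunctionFieldBar N ≤ modularFunctionFieldBar M := by
  rw [modularFunctionFieldBar_eq_adjoin N, modularFunctionFieldBar_eq_adjoin M]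
  apply IntermediateField.adjoin.mono
  rintro x ⟨d, hdne, hd, rfl⟩
  exact ⟨d, hdne, hd.trans h, rfl⟩

/-- the level `Q R` divides the level `Q' R'` -/
theorem r38_level_dvd (D D' : ALData) (hQ : D'.Q = D.Q) (hR : D.R ∣ D'.R) :
    D.Q * D.R ∣ D'.Q * D'.R := by
  rw [hQ]
  exact Nat.mul_dvd_mul_left _ hR

/-- the inclusion of `j(q^d)` -/
theorem r38_inclusion_jF {N M : ℕ}
    (hle : modularFunctionFieldBar N ≤ modularFunctionFieldBar M) (d : ℕ) [NeZero d]
    (hd : d ∣ N) (hd' : d ∣ M) :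
    IntermediateField.inclusion hle (jF N d hd) = jF M d hd' := by
  apply Subtype.ext
  rw [IntermediateField.coe_inclusion, coe_jF, coe_jF]

/-- **`w_{D'}` restricts to `w_D` on `F_{QR}`** (`D'.Q = D.Q`, `D.R ∣ D'.R`). -/
theorem r38_atkinLehner_inclusion (D D' : ALData) (hQ : D'.Q = D.Q) (hR : D.R ∣ D'.R)
    (hle : modularFunctionFieldBar (D.Q * D.R) ≤ modularFunctionFieldBar (D'.Q * D'.R))
    (x : modularFunctionFieldBar (D.Q * D.R)) :
    atkinLehner D' (IntermediateField.inclusion hle x) =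
      IntermediateField.inclusion hle (atkinLehner D x) := by
  obtain ⟨x, hx⟩ := x
  have hx' : x ∈ IntermediateField.adjoin Kbar (serGens (D.Q * D.R)) := by
    rw [← modularFunctionFieldBar_eq_adjoin]
    exact hx
  have hmem : ∀ y, y ∈ IntermediateField.adjoin Kbar (serGens (D.Q * D.R)) →
      y ∈ modularFunctionFieldBar (D.Q * D.R) := by
    intro y hy
    rw [modularFunctionFieldBar_eq_adjoin]
    exact hy
  refine IntermediateField.adjoin_induction Kbar
    (p := fun y _ => ∀ h : y ∈ modularFunctionFieldBar (D.Q * D.R),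
      atkinLehner D' (IntermediateField.inclusion hle ⟨y, h⟩) =
        IntermediateField.inclusion hle (atkinLehner D ⟨y, h⟩))
    ?_ ?_ ?_ ?_ ?_ hx' hx
  · rintro y ⟨d, hdne, hd, rfl⟩ h
    have e : (⟨qExpand Kbar d (jqModC Kbar), h⟩ : modularFunctionFieldBar (D.Q * D.R)) =
        jF (D.Q * D.R) d hd := rfl
    rw [e]
    obtain ⟨d₁, e₁, d₂, f₂, h1, h2, rfl⟩ := exists_factor D hd
    obtain ⟨p1, p2, p3, p4⟩ := factor_pos D h1 h2
    haveI : NeZero (e₁ * d₂) := ⟨(Nat.mul_pos p2 p3).ne'⟩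
    obtain ⟨c, hc⟩ := hR
    have h1' : d₁ * e₁ = D'.Q := by rw [hQ]; exact h1
    have h2' : d₂ * (f₂ * c) = D'.R := by rw [hc, ← h2, mul_assoc]
    have hdvd : D.Q * D.R ∣ D'.Q * D'.R := r38_level_dvd D D' hQ ⟨c, hc⟩
    have hd1 : e₁ * d₂ ∣ D.Q * D.R := by
      rw [← h1, ← h2]
      exact Nat.mul_dvd_mul (Dvd.intro_left d₁ rfl) (Dvd.intro f₂ rfl)
    rw [atkinLehner_jF D d₁ e₁ d₂ f₂ h1 h2 hd hd1,
      r38_inclusion_jF hle (d₁ * d₂) hd (hd.trans hdvd),
      r38_inclusion_jF hle (e₁ * d₂) hd1 (hd1.trans hdvd),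
      atkinLehner_jF D' d₁ e₁ d₂ (f₂ * c) h1' h2' (hd.trans hdvd) (hd1.trans hdvd)]
  · intro c h
    have e : (⟨algebraMap Kbar (LaurentSeries Kbar) c, h⟩ :
        modularFunctionFieldBar (D.Q * D.R)) =
        algebraMap Kbar (modularFunctionFieldBar (D.Q * D.R)) c := rfl
    rw [e, AlgEquiv.commutes, AlgHom.commutes, AlgEquiv.commutes]
  · intro y z hy hz ihy ihz h
    have hy' := hmem y hy
    have hz' := hmem z hz
    have e : (⟨y + z, h⟩ : modularFunctionFieldBar (D.Q * D.R)) = ⟨y, hy'⟩ + ⟨z, hz'⟩ := rfl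
    rw [e, map_add, map_add, map_add, map_add, ihy hy', ihz hz']
  · intro y hy ihy h
    have hy' := hmem y hy
    have e : (⟨y⁻¹, h⟩ : modularFunctionFieldBar (D.Q * D.R)) = (⟨y, hy'⟩)⁻¹ := rfl
    rw [e, map_inv₀, map_inv₀, map_inv₀, map_inv₀, ihy hy']
  · intro y z hy hz ihy ihz h
    have hy' := hmem y hy
    have hz' := hmem z hz
    have e : (⟨y * z, h⟩ : modularFunctionFieldBar (D.Q * D.R)) = ⟨y, hy'⟩ * ⟨z, hz'⟩ := rfl
    rw [e, map_mul, map_mul, map_mul, map_mul, ihy hy', ihz hz']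

/-- the same as an equality of Laurent series -/
theorem r38_coe_atkinLehner_inclusion (D D' : ALData) (hQ : D'.Q = D.Q) (hR : D.R ∣ D'.R)
    (hle : modularFunctionFieldBar (D.Q * D.R) ≤ modularFunctionFieldBar (D'.Q * D'.R))
    (x : modularFunctionFieldBar (D.Q * D.R)) :
    ((atkinLehner D' (IntermediateField.inclusion hle x) :
        modularFunctionFieldBar (D'.Q * D'.R)) : LaurentSeries Kbar) =
      ((atkinLehner D x : modularFunctionFieldBar (D.Q * D.R)) : LaurentSeries Kbar) := by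
  rw [r38_atkinLehner_inclusion D D' hQ hR hle x, IntermediateField.coe_inclusion]

section ValSetup

variable {k Fk Fk' : Type*} [Field k] [Field Fk] [Algebra k Fk] [Field Fk'] [Algebra k Fk']

/-- **`v_0` compat, valuation rings**: if `O_{v_∞'} ∩ F_{QR} = O_{v_∞}` then
`O_{v_0'} ∩ F_{QR} = O_{v_0}`. -/
theorem r38_valSetupZero_mem_iff (D D' : ALData) (hQ : D'.Q = D.Q) (hR : D.R ∣ D'.R)
    (hle : modularFunctionFieldBar (D.Q * D.R) ≤ modularFunctionFieldBar (D'.Q * D'.R))
    (S : ValSetup Kbar (modularFunctionFieldBar (D.Q * D.R)) k Fk)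
    (S' : ValSetup Kbar (modularFunctionFieldBar (D'.Q * D'.R)) k Fk')
    (hOv : ∀ x, IntermediateField.inclusion hle x ∈ S'.Ov ↔ x ∈ S.Ov)
    (x : modularFunctionFieldBar (D.Q * D.R)) :
    IntermediateField.inclusion hle x ∈ (valSetupZero D' S').Ov ↔ x ∈ (valSetupZero D S).Ov := by
  rw [mem_valSetupZero_Ov, mem_valSetupZero_Ov, r38_atkinLehner_inclusion D D' hQ hR hle x, hOv]

/-- **`v_0` compat, reductions**: if `red_∞' ∘ incl = ι ∘ red_∞` then
`red_0' ∘ incl = ι ∘ red_0`. -/
theorem r38_valSetupZero_red (D D' : ALData) (hQ : D'.Q = D.Q) (hR : D.R ∣ D'.R)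
    (hle : modularFunctionFieldBar (D.Q * D.R) ≤ modularFunctionFieldBar (D'.Q * D'.R))
    (S : ValSetup Kbar (modularFunctionFieldBar (D.Q * D.R)) k Fk)
    (S' : ValSetup Kbar (modularFunctionFieldBar (D'.Q * D'.R)) k Fk')
    (ι : Fk → Fk')
    (hred : ∀ x, S'.red (IntermediateField.inclusion hle x) = ι (S.red x))
    (x : modularFunctionFieldBar (D.Q * D.R)) :
    (valSetupZero D' S').red (IntermediateField.inclusion hle x) =
      ι ((valSetupZero D S).red x) := by
  rw [valSetupZero_red, valSetupZero_red, r38_atkinLehner_inclusion D D' hQ hR hle x, hred]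

end ValSetup

end Fermat.Agent.R38
end
end MergeWrap_R38_P_LevelAL

section MergeWrap_R38_D_PullCls -- from R38/D/PullCls.lean

set_option autoImplicit false
set_option linter.unusedVariables false
set_option linter.unusedSectionVars false
set_option linter.style.haveILetI false
set_option synthInstance.maxHeartbeats 400000

noncomputable section

namespace Fermat.Agent.R38

open ModularCurve AlgebraicCurve Fermat.Agent.F3 Fermat.Agent.F3G Fermat.Agent.F3I2 Fermat.Agent.F3T
  Fermat.Agent.AtkinLehner Fermat.Agent.FF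

local notation "Qb" => AlgebraicClosure ℚ
local notation "GQ" => (AlgebraicClosure ℚ ≃ₐ[ℚ] AlgebraicClosure ℚ)

section General

variable {N M : ℕ} [NeZero N] [NeZero M] (h : N ∣ M)

/-- the pull-back of a Kummer generator is a Kummer generator of the pull-back. -/
theorem r38_pull_isRootDiv (p : ℕ) {E : Divisor.degZero (K := Qb) (F := FBar N)} {g : FBar N}
    (hg : IsRootDiv p g E) :
    haveI := hasPrincipalDivisors_bar M
    IsRootDiv p (inclBar h g)
      (degZeroPull (inclBar h) (inclBar_isIntegral h) (inclBar_fundId h) E) := by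
  haveI := hasPrincipalDivisors_bar M
  refine ⟨fun h0 => hg.1 ((map_eq_zero_iff _ (inclBar h).injective).mp h0), fun w => ?_⟩
  rw [coe_degZeroPull, Divisor.pullbackAlong_apply,
    Place.ord_restrictAlong (inclBar h) (inclBar_isIntegral h) w g, ← hg.2]
  ring

/-- **PULL-CLS, Kummer generators** (general levels `N ∣ M`). -/
theorem r38_pull_isKumGen (p : ℕ) {y : JZero N} {E : Divisor.degZero (K := Qb) (F := FBar N)}
    {g : FBar N} (hy : spIsKumGen p y E g) :
    ∃ E' : Divisor.degZero (K := Qb) (F := FBar M),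
      spIsKumGen p (pullJZero h y) E' (inclBar h g) := by
  haveI := hasPrincipalDivisors_bar M
  refine ⟨degZeroPull (inclBar h) (inclBar_isIntegral h) (inclBar_fundId h) E,
    r38_pull_isRootDiv h p hy.1, ?_⟩
  rw [← hy.2]
  rfl

/-- the Kummer stabiliser condition pulls back. -/
theorem r38_pull_spKumStab (p : ℕ) (A : ValuationSubring Qb) {y : JZero N}
    (hy : spKumStab p A y) : spKumStab p A (pullJZero h y) := by
  obtain ⟨a, ha1, ha2, ha3, ha4⟩ := hy
  refine ⟨a, ha1, ha2, ha3, fun α ζ hα hζ σ hσ hσζ hσα => ?_⟩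
  rw [← pullJZero_smul, ha4 α ζ hα hζ σ hσ hσζ hσα]

/-- unipotence pulls back. -/
theorem r38_pull_spUnip (p : ℕ) (A : ValuationSubring Qb) {y : JZero N}
    (hy : spUnip p A y) : spUnip p A (pullJZero h y) := by
  intro ζ hζ σ hσ τ hτ hτζ
  rw [← pullJZero_smul, ← map_sub, ← pullJZero_smul, hy ζ hζ σ hσ τ hτ hτζ]

/-- torsion pulls back. -/
theorem r38_pull_nsmul_eq_zero (p : ℕ) {y : JZero N} (hy : p • y = 0) :
    p • pullJZero h y = 0 := by
  rw [← map_nsmul, hy, map_zero]

end General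

section AL

variable (D D' : ALData) [NeZero D.Q] [NeZero D.R] [NeZero (D.Q * D.R)]
  [NeZero D'.Q] [NeZero D'.R] [NeZero (D'.Q * D'.R)] (hQ : D'.Q = D.Q) (hR : D.R ∣ D'.R)

/-- **PULL-CLS**: the pull-back of classes from level `Q R` to level `Q R'`. -/
def r38PullJ : JZero (D.Q * D.R) →+ JZero (D'.Q * D'.R) :=
  pullJZero (r38_level_dvd D D' hQ hR)

/-- the pull-back is Galois-equivariant. -/
theorem r38PullJ_smul (σ : GQ) (y : JZero (D.Q * D.R)) :
    r38PullJ D D' hQ hR (σ • y) = σ • r38PullJ D D' hQ hR y :=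
  pullJZero_smul _ σ y

/-- the inclusion of `R38/P/LevelAL.lean` is `inclBar`. -/
theorem r38_inclusion_eq_inclBar
    (hle : modularFunctionFieldBar (D.Q * D.R) ≤ modularFunctionFieldBar (D'.Q * D'.R))
    (g : FBar (D.Q * D.R)) :
    IntermediateField.inclusion hle g = inclBar (r38_level_dvd D D' hQ hR) g := rfl

/-- **PULL-CLS, Kummer generators**: `(E, g)` Kummer generator of `y` ⟹ `(pull E, incl g)` is a
Kummer generator of `r38PullJ y`. -/
theorem r38PullJ_isKumGen
    (hle : modularFunctionFieldBar (D.Q * D.R) ≤ modularFunctionFieldBar (D'.Q * D'.R))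
    (p : ℕ) {y : JZero (D.Q * D.R)}
    {E : Divisor.degZero (K := Qb) (F := FBar (D.Q * D.R))} {g : FBar (D.Q * D.R)}
    (hy : spIsKumGen p y E g) :
    ∃ E' : Divisor.degZero (K := Qb) (F := FBar (D'.Q * D'.R)),
      spIsKumGen p (r38PullJ D D' hQ hR y) E' (IntermediateField.inclusion hle g) :=
  r38_pull_isKumGen (r38_level_dvd D D' hQ hR) p hy

theorem r38PullJ_spKumStab (p : ℕ) (A : ValuationSubring Qb) {y : JZero (D.Q * D.R)}
    (hy : spKumStab p A y) : spKumStab p A (r38PullJ D D' hQ hR y) :=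
  r38_pull_spKumStab _ p A hy

theorem r38PullJ_spUnip (p : ℕ) (A : ValuationSubring Qb) {y : JZero (D.Q * D.R)}
    (hy : spUnip p A y) : spUnip p A (r38PullJ D D' hQ hR y) :=
  r38_pull_spUnip _ p A hy

theorem r38PullJ_nsmul_eq_zero (p : ℕ) {y : JZero (D.Q * D.R)} (hy : p • y = 0) :
    p • r38PullJ D D' hQ hR y = 0 :=
  r38_pull_nsmul_eq_zero _ p hy

end AL

end Fermat.Agent.R38
end
end MergeWrap_R38_D_PullCls

section MergeWrap_R38_P_LevelGauss -- from R38/P/LevelGauss.lean

set_option autoImplicit false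
set_option linter.unusedVariables false
set_option linter.unusedSectionVars false
set_option linter.style.haveILetI false
set_option synthInstance.maxHeartbeats 400000

noncomputable section

namespace Fermat.Agent.R38

open Fermat.Agent.GaussInt Fermat.Agent.Deuring Fermat.Agent.BadRed Fermat.Agent.S24 ModularCurve
  Fermat.Agent.F3G

/-! ### abstract part -/

section Abstract

variable {K : Type*} [Field K] {A : ValuationSubring K}
  {F F' : IntermediateField K (LaurentSeries K)}

/-- a presentation in `F` is a presentation in `F' ⊇ F` -/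
theorem r38_isPres_mono (hle : F ≤ F') {f : LaurentSeries K} {Y₁ Y₂ : LaurentSeries A}
    (h : IsPres A F f Y₁ Y₂) : IsPres A F' f Y₁ Y₂ :=
  ⟨hle h.mem₁, hle h.mem₂, h.prim, h.eq⟩

theorem r38_gaussSub_mono (hle : F ≤ F') : gaussSub A F ≤ gaussSub A F' := by
  rintro f ⟨Y₁, Y₂, h⟩
  exact ⟨Y₁, Y₂, r38_isPres_mono hle h⟩

/-- the residues at the two levels agree on the smaller Gauss ring -/
theorem r38_gaussResFun_eq (hle : F ≤ F') {f : LaurentSeries K} (hf : f ∈ gaussSub A F) :
    gaussResFun A F' f = gaussResFun A F f := by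
  obtain ⟨Y₁, Y₂, h⟩ := hf
  rw [gaussResFun_eq h, gaussResFun_eq (r38_isPres_mono hle h)]

/-- an element outside a valuation ring has an inverse which is a non-unit of the valuation ring -/
theorem r38_inv_nonunit {L : Type*} [Field L] (O : ValuationSubring L) {x : L} (hx : x ∉ O) :
    ∃ h : x⁻¹ ∈ O, ¬ IsUnit (⟨x⁻¹, h⟩ : O) := by
  have hinv : x⁻¹ ∈ O := (O.mem_or_inv_mem x).resolve_left hx
  refine ⟨hinv, fun hu => hx ?_⟩
  have h1 : O.valuation x⁻¹ = 1 := (O.valuation_eq_one_iff ⟨x⁻¹, hinv⟩).mp hu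
  rw [map_inv₀, inv_eq_one] at h1
  exact (O.valuation_le_one_iff x).mp h1.le

/-- the reduction of an element of the valuation ring vanishes iff the element is not a unit;
in terms of `red` -/
theorem r38_red_eq_zero_iff {K₁ F₁ k₁ Fk₁ : Type*} [Field K₁] [Field F₁] [Algebra K₁ F₁] [Field k₁]
    [Field Fk₁] [Algebra k₁ Fk₁] (T : ValSetup K₁ F₁ k₁ Fk₁) {f : F₁} (hf : f ∈ T.Ov) :
    T.red f = 0 ↔ ¬ IsUnit (⟨f, hf⟩ : T.Ov) := by
  unfold ValSetup.red
  rw [dif_pos hf]
  exact T.ρ_eq_zero_iff ⟨f, hf⟩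

theorem r38_red_of_not_mem {K₁ F₁ k₁ Fk₁ : Type*} [Field K₁] [Field F₁] [Algebra K₁ F₁] [Field k₁]
    [Field Fk₁] [Algebra k₁ Fk₁] (T : ValSetup K₁ F₁ k₁ Fk₁) {f : F₁} (hf : f ∉ T.Ov) :
    T.red f = 0 := by
  unfold ValSetup.red
  rw [dif_neg hf]

/-- the reduction of the inverse of an element outside the valuation ring vanishes -/
theorem r38_red_inv_eq_zero {K₁ F₁ k₁ Fk₁ : Type*} [Field K₁] [Field F₁] [Algebra K₁ F₁]
    [Field k₁] [Field Fk₁] [Algebra k₁ Fk₁] (T : ValSetup K₁ F₁ k₁ Fk₁) {f : F₁}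
    (hf : f ∉ T.Ov) : f⁻¹ ∈ T.Ov ∧ T.red f⁻¹ = 0 := by
  obtain ⟨h, hnu⟩ := r38_inv_nonunit T.Ov hf
  exact ⟨h, (r38_red_eq_zero_iff T h).mpr hnu⟩

/-- elements of the valuation ring with product `1` have non-zero reduction -/
theorem r38_red_ne_zero_of_mul_eq_one {K₁ F₁ k₁ Fk₁ : Type*} [Field K₁] [Field F₁]
    [Algebra K₁ F₁] [Field k₁] [Field Fk₁] [Algebra k₁ Fk₁] (T : ValSetup K₁ F₁ k₁ Fk₁)
    {f g : F₁} (hf : f ∈ T.Ov) (hg : g ∈ T.Ov) (hfg : f * g = 1) : T.red f ≠ 0 := by
  rw [Ne, r38_red_eq_zero_iff T hf, not_not]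
  exact ⟨⟨⟨f, hf⟩, ⟨g, hg⟩, Subtype.ext hfg, Subtype.ext (by rw [mul_comm]; exact hfg)⟩, rfl⟩

/-- the zero elements of two subfields coincide in the ambient field -/
theorem r38_coe_eq_of_eq_zero {K₁ L : Type*} [Field K₁] [Field L] [Algebra K₁ L]
    {F₁ F₂ : IntermediateField K₁ L} {a : F₁} {b : F₂} (ha : a = 0) (hb : b = 0) :
    (a : L) = (b : L) := by
  rw [ha, hb]
  rfl

theorem r38_eq_zero_of_coe_eq {K₁ L : Type*} [Field K₁] [Field L] [Algebra K₁ L]
    {F₁ F₂ : IntermediateField K₁ L} {a : F₁} {b : F₂} (hab : (a : L) = (b : L)) (hb : b = 0) :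
    a = 0 := by
  apply Subtype.ext
  rw [hab, hb]
  rfl

end Abstract

/-! ### modular part -/

section Modular

local notation "Qb" => AlgebraicClosure ℚ

variable {N N' N₀ N₀' : ℕ} [NeZero N] [NeZero N'] [NeZero N₀] [NeZero N₀']
  {A : ValuationSubring Qb}
  {S : ValSetup Qb (modularFunctionFieldBar N) (IsLocalRing.ResidueField A)
    (modularFunctionFieldFullC (IsLocalRing.ResidueField A) N₀)}
  {S' : ValSetup Qb (modularFunctionFieldBar N') (IsLocalRing.ResidueField A)
    (modularFunctionFieldFullC (IsLocalRing.ResidueField A) N₀')}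

/-- `O_{S'} ∩ F_N ⊇ O_S` -/
theorem r38_gauss_mem_of_mem (hS : IsGaussSetup N N₀ A S) (hS' : IsGaussSetup N' N₀' A S')
    (hle : modularFunctionFieldBar N ≤ modularFunctionFieldBar N') {x : modularFunctionFieldBar N}
    (hx : x ∈ S.Ov) : IntermediateField.inclusion hle x ∈ S'.Ov := by
  rw [hS'.mem_iff, IntermediateField.coe_inclusion]
  exact r38_gaussSub_mono hle ((hS.mem_iff x).mp hx)

/-- the reductions agree on `O_S` -/
theorem r38_gauss_coe_red_of_mem (hS : IsGaussSetup N N₀ A S)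
    (hS' : IsGaussSetup N' N₀' A S')
    (hle : modularFunctionFieldBar N ≤ modularFunctionFieldBar N') {x : modularFunctionFieldBar N}
    (hx : x ∈ S.Ov) :
    ((S'.red (IntermediateField.inclusion hle x) :
        modularFunctionFieldFullC (IsLocalRing.ResidueField A) N₀') :
        LaurentSeries (IsLocalRing.ResidueField A)) =
      ((S.red x : modularFunctionFieldFullC (IsLocalRing.ResidueField A) N₀) :
        LaurentSeries (IsLocalRing.ResidueField A)) := by
  rw [hS'.coe_red _ (r38_gauss_mem_of_mem hS hS' hle hx), hS.coe_red _ hx,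
    IntermediateField.coe_inclusion]
  exact r38_gaussResFun_eq hle ((hS.mem_iff x).mp hx)

set_option maxHeartbeats 3200000 in
/-- **`O_{S'} ∩ F_N = O_S`**. -/
theorem r38_gauss_mem_iff (hS : IsGaussSetup N N₀ A S) (hS' : IsGaussSetup N' N₀' A S')
    (hle : modularFunctionFieldBar N ≤ modularFunctionFieldBar N') (x : modularFunctionFieldBar N) :
    IntermediateField.inclusion hle x ∈ S'.Ov ↔ x ∈ S.Ov := by
  refine ⟨fun hx' => ?_, r38_gauss_mem_of_mem hS hS' hle⟩
  by_contra hx
  obtain ⟨hinv, hred⟩ := r38_red_inv_eq_zero S hx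
  have hx0 : x ≠ 0 := fun h0 => hx (by rw [h0]; exact S.Ov.zero_mem)
  have hinv' : IntermediateField.inclusion hle x⁻¹ ∈ S'.Ov :=
    r38_gauss_mem_of_mem hS hS' hle hinv
  have hred' : S'.red (IntermediateField.inclusion hle x⁻¹) = 0 :=
    r38_eq_zero_of_coe_eq (K₁ := IsLocalRing.ResidueField A)
      (L := LaurentSeries (IsLocalRing.ResidueField A))
      (F₁ := modularFunctionFieldFullC (IsLocalRing.ResidueField A) N₀')
      (F₂ := modularFunctionFieldFullC (IsLocalRing.ResidueField A) N₀)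
      (r38_gauss_coe_red_of_mem hS hS' hle hinv) hred
  have hmul : IntermediateField.inclusion hle x⁻¹ * IntermediateField.inclusion hle x = 1 := by
    rw [← map_mul, inv_mul_cancel₀ hx0, map_one]
  exact r38_red_ne_zero_of_mul_eq_one S' hinv' hx' hmul hred'

set_option maxHeartbeats 3200000 in
/-- **the reductions agree** (as Laurent series over the residue field), for every `x ∈ F_N`. -/
theorem r38_gauss_coe_red (hS : IsGaussSetup N N₀ A S) (hS' : IsGaussSetup N' N₀' A S')
    (hle : modularFunctionFieldBar N ≤ modularFunctionFieldBar N') (x : modularFunctionFieldBar N) :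
    ((S'.red (IntermediateField.inclusion hle x) :
        modularFunctionFieldFullC (IsLocalRing.ResidueField A) N₀') :
        LaurentSeries (IsLocalRing.ResidueField A)) =
      ((S.red x : modularFunctionFieldFullC (IsLocalRing.ResidueField A) N₀) :
        LaurentSeries (IsLocalRing.ResidueField A)) := by
  by_cases hx : x ∈ S.Ov
  · exact r38_gauss_coe_red_of_mem hS hS' hle hx
  · have hx' : IntermediateField.inclusion hle x ∉ S'.Ov :=
      fun h => hx ((r38_gauss_mem_iff hS hS' hle x).mp h)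
    exact r38_coe_eq_of_eq_zero (K₁ := IsLocalRing.ResidueField A)
      (L := LaurentSeries (IsLocalRing.ResidueField A))
      (F₁ := modularFunctionFieldFullC (IsLocalRing.ResidueField A) N₀')
      (F₂ := modularFunctionFieldFullC (IsLocalRing.ResidueField A) N₀)
      (r38_red_of_not_mem S' hx') (r38_red_of_not_mem S hx)

/-- **the reductions agree**, with the inclusion `F_k(N₀) ⊆ F_k(N₀')` of the residue function
fields. -/
theorem r38_gauss_red (hS : IsGaussSetup N N₀ A S) (hS' : IsGaussSetup N' N₀' A S')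
    (hle : modularFunctionFieldBar N ≤ modularFunctionFieldBar N')
    (hle₀ : modularFunctionFieldFullC (IsLocalRing.ResidueField A) N₀ ≤
      modularFunctionFieldFullC (IsLocalRing.ResidueField A) N₀') (x : modularFunctionFieldBar N) :
    S'.red (IntermediateField.inclusion hle x) = IntermediateField.inclusion hle₀ (S.red x) := by
  apply Subtype.ext
  rw [r38_gauss_coe_red hS hS' hle x, IntermediateField.coe_inclusion]

/-- `F_k(N₀) ⊆ F_k(N₀')` for `N₀ ∣ N₀'`. -/
theorem r38_fullC_le_of_dvd (k : Type*) [Field k] {M M' : ℕ} (h : M ∣ M') :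
    modularFunctionFieldFullC k M ≤ modularFunctionFieldFullC k M' := by
  unfold modularFunctionFieldFullC
  apply IntermediateField.adjoin.mono
  rintro x ⟨d, hdne, hd, rfl⟩
  exact ⟨d, hdne, hd.trans h, rfl⟩

end Modular

end Fermat.Agent.R38
end
end MergeWrap_R38_P_LevelGauss

section MergeWrap_R38_P_PlaceUp -- from R38/P/PlaceUp.lean

set_option autoImplicit false
set_option linter.unusedSectionVars false
set_option linter.style.haveILetI false

noncomputable section

open ModularCurve AlgebraicCurve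

set_option synthInstance.maxHeartbeats 400000

namespace Fermat.Agent.R38

open Fermat.Agent.RedTr Fermat.Agent.RR IntermediateField

section Abstract

variable {K E F : Type*} [Field K] [Field E] [Field F] [Algebra K E] [Algebra K F]

/-- a place above, with the ramification index: abstract form. -/
theorem r38_placeUp_abs (hE : IsRRField K E) (hF : IsRRField K F) (φ : E →ₐ[K] F)
    (hfin : FiniteAlong K φ) (Q : Place K E) :
    ∃ (Q' : Place K F) (e : ℕ), 0 < e ∧ ∀ x : E, Q'.ord (φ x) = (e : ℤ) * Q.ord x := by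
  have hφ : φ.toRingHom.IsIntegral := by
    letI := algebraAlong φ
    haveI : Module.Finite E F := hfin
    intro z
    exact (Algebra.IsIntegral.of_finite E F).isIntegral z
  haveI : HasPrincipalDivisors K F := hasPD hF
  have hFI : FundamentalIdentityAlong K φ hφ := fundIdK hE hF φ hφ
  obtain ⟨Q', hQ'⟩ := exists_restrictAlong_eq hE hF φ hφ hFI hfin Q
  refine ⟨Q', Place.ramificationIndexAlong φ Q', ramificationIndexAlong_pos φ hφ Q', fun x => ?_⟩
  rw [Place.ord_restrictAlong φ hφ Q' x, hQ']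

end Abstract

section Modular

variable (k : Type*) [Field k] [IsAlgClosed k] {M M' : ℕ} [NeZero M] [NeZero M']

/-- the inclusion `F_k(M) ⊆ F_k(M')` is finite. -/
theorem r38_placeUp_finite
    (hle₀ : modularFunctionFieldFullC k M ≤ modularFunctionFieldFullC k M')
    (hRR' : IsRRField k (modularFunctionFieldFullC k M')) :
    FiniteAlong k (IntermediateField.inclusion hle₀) := by
  haveI : FiniteDimensional
      k⟮IntermediateField.inclusion hle₀ (Fermat.Agent.RRMod.jC k M)⟯
      (modularFunctionFieldFullC k M') := by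
    have e : IntermediateField.inclusion hle₀ (Fermat.Agent.RRMod.jC k M) =
        Fermat.Agent.RRMod.jC k M' := Subtype.ext rfl
    rw [e]
    exact fundIdK_finiteDimensional hRR' (Fermat.Agent.RRMod.transcendental_jC k M')
  exact mc_finiteAlong _ (Fermat.Agent.RRMod.jC k M)

/-- **(PU)**: every place of `F_k(M)` has a place of `F_k(M')` above it (`F_k(M) ⊆ F_k(M')`),
with `ord_{Q'} (ι x) = e · ord_Q x`, `e ≥ 1`. -/
theorem r38_placeUp
    (hle₀ : modularFunctionFieldFullC k M ≤ modularFunctionFieldFullC k M')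
    (hRR : IsRRField k (modularFunctionFieldFullC k M))
    (hRR' : IsRRField k (modularFunctionFieldFullC k M'))
    (Q : Place k (modularFunctionFieldFullC k M)) :
    ∃ (Q' : Place k (modularFunctionFieldFullC k M')) (e : ℕ), 0 < e ∧
      ∀ x : modularFunctionFieldFullC k M,
        Q'.ord (IntermediateField.inclusion hle₀ x) = (e : ℤ) * Q.ord x :=
  r38_placeUp_abs hRR hRR' (IntermediateField.inclusion hle₀)
    (r38_placeUp_finite k hle₀ hRR') Q

/-- **(PU)** for `M ∣ M'` and `mc_inclC`. -/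
theorem r38_placeUp_dvd (h : M ∣ M') (Q : Place k (modularFunctionFieldFullC k M)) :
    ∃ (Q' : Place k (modularFunctionFieldFullC k M')) (e : ℕ), 0 < e ∧
      ∀ x : modularFunctionFieldFullC k M, Q'.ord (mc_inclC k h x) = (e : ℤ) * Q.ord x :=
  r38_placeUp k (mc_fullC_le k h) (Fermat.Agent.RRMod.isRRField_fullC' k M)
    (Fermat.Agent.RRMod.isRRField_fullC' k M') Q

end Modular

end Fermat.Agent.R38
end
end MergeWrap_R38_P_PlaceUp

section MergeWrap_R38_P_AuxDesc -- from R38/P/AuxDesc.lean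

set_option autoImplicit false
set_option linter.style.haveILetI false
set_option linter.unusedSectionVars false
set_option linter.unusedVariables false
set_option synthInstance.maxHeartbeats 400000
set_option maxHeartbeats 1000000

noncomputable section

namespace Fermat.Agent.R38

open ModularCurve AlgebraicCurve Fermat.Agent.F3 Fermat.Agent.F3G
  Fermat.Agent.GaussInt Fermat.Agent.AtkinLehner Fermat.Agent.Deuring Fermat.Agent.RR
  Fermat.Agent.BadRed Fermat.Agent.EKp

local notation "Qb" => AlgebraicClosure ℚ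

variable (D : ALData) [NeZero D.Q] [NeZero D.R] [NeZero (D.Q * D.R)]
  (A : ValuationSubring Qb) (hq : D.Q.Prime) (hA : A.LiesOverPrime D.Q) (hqR : ¬ D.Q ∣ D.R)
  (D' : ALData) [NeZero D'.Q] [NeZero D'.R] [NeZero (D'.Q * D'.R)]
  (hq' : D'.Q.Prime) (hA' : A.LiesOverPrime D'.Q) (hqR' : ¬ D'.Q ∣ D'.R)

/-- `kpEps_cast` with the instances derived from `hq`, `hA` (two `CharP` instances on the same
residue field must never be in scope together: the characteristic is an out-parameter). -/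
theorem auxDesc_kpEps_cast (i : kpIota D A hq hA hqR) :
    ((kpEps D A hq hA hqR i : ℕ) : ℤ) = i.1.ord ((kpS D A hq hA hqR).red (fwU D)) := by
  haveI : Fact D.Q.Prime := ⟨hq⟩
  haveI : CharP (IsLocalRing.ResidueField A) D.Q :=
    Fermat.Agent.FrobTrace.charP_residueField A hA
  haveI : IsAlgClosed (IsLocalRing.ResidueField A) := Fermat.Agent.GaussInt.isAlgClosed_residue A
  haveI : PerfectRing (IsLocalRing.ResidueField A) D.Q := inferInstance
  exact kpEps_cast D A hq hA hqR i

/-- `kpEps_pos` with the instances derived from `hq`, `hA`. -/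
theorem auxDesc_kpEps_pos (i : kpIota D A hq hA hqR) : 0 < kpEps D A hq hA hqR i := by
  haveI : Fact D.Q.Prime := ⟨hq⟩
  haveI : CharP (IsLocalRing.ResidueField A) D.Q :=
    Fermat.Agent.FrobTrace.charP_residueField A hA
  haveI : IsAlgClosed (IsLocalRing.ResidueField A) := Fermat.Agent.GaussInt.isAlgClosed_residue A
  haveI : PerfectRing (IsLocalRing.ResidueField A) D.Q := inferInstance
  exact kpEps_pos D A hq hA hqR i

/-- `ū' = ᾱ ū`: the reductions of `u = Δ(z)/Δ(pz)` at the two levels agree. -/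
theorem auxDesc_red_fwU (hQ : D'.Q = D.Q)
    (hle₀ : modularFunctionFieldFullC (IsLocalRing.ResidueField A) D.R ≤
      modularFunctionFieldFullC (IsLocalRing.ResidueField A) D'.R) :
    (kpS D' A hq' hA' hqR').red (fwU D') =
      IntermediateField.inclusion hle₀ ((kpS D A hq hA hqR).red (fwU D)) := by
  apply Subtype.ext
  rw [fw_coe_red_uF D' A hq' hA' _ (isGaussSetup_gaussSetupBad D' hq' hqR' A hA'),
    IntermediateField.coe_inclusion,
    fw_coe_red_uF D A hq hA _ (isGaussSetup_gaussSetupBad D hq hqR A hA), hQ]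

/-- a normalised reduction of `g` gives a normalised reduction of `α g`. -/
theorem auxDesc_isRedInf
    (hle : modularFunctionFieldBar (D.Q * D.R) ≤ modularFunctionFieldBar (D'.Q * D'.R))
    (hle₀ : modularFunctionFieldFullC (IsLocalRing.ResidueField A) D.R ≤
      modularFunctionFieldFullC (IsLocalRing.ResidueField A) D'.R)
    {g : FBar (D.Q * D.R)} {r : modularFunctionFieldFullC (IsLocalRing.ResidueField A) D.R}
    (h : spIsRedInf D A hq hA hqR g r) :
    spIsRedInf D' A hq' hA' hqR' (IntermediateField.inclusion hle g)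
      (IntermediateField.inclusion hle₀ r) := by
  obtain ⟨c, hc, hmem, hred, hr0⟩ := h
  have hS := isGaussSetup_gaussSetupBad D hq hqR A hA
  have hS' := isGaussSetup_gaussSetupBad D' hq' hqR' A hA'
  have e1 : IntermediateField.inclusion hle g / algebraMap Qb (FBar (D'.Q * D'.R)) c =
      IntermediateField.inclusion hle (g / algebraMap Qb (FBar (D.Q * D.R)) c) := by
    rw [map_div₀, AlgHom.commutes]
  unfold spIsRedInf
  refine ⟨c, hc, ?_, ?_, ?_⟩
  · rw [e1]
    exact (r38_gauss_mem_iff hS hS' hle _).mpr hmem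
  · rw [e1, r38_gauss_red hS hS' hle hle₀, hred]
  · intro h0
    apply hr0
    have := (map_eq_zero (IntermediateField.inclusion hle₀)).mp h0
    exact this

/-- **AUX-DESC**, from the existence of places of `F_k(R')` above the places of `F_k(R)`. -/
theorem r38_auxDesc_of_placeUp (hQ : D'.Q = D.Q)
    (hle : modularFunctionFieldBar (D.Q * D.R) ≤ modularFunctionFieldBar (D'.Q * D'.R))
    (hle₀ : modularFunctionFieldFullC (IsLocalRing.ResidueField A) D.R ≤
      modularFunctionFieldFullC (IsLocalRing.ResidueField A) D'.R)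
    (hPU : ∀ Q : Place (IsLocalRing.ResidueField A)
        (modularFunctionFieldFullC (IsLocalRing.ResidueField A) D.R),
      ∃ (Q' : Place (IsLocalRing.ResidueField A)
          (modularFunctionFieldFullC (IsLocalRing.ResidueField A) D'.R)) (e : ℕ), 0 < e ∧
        ∀ x : modularFunctionFieldFullC (IsLocalRing.ResidueField A) D.R,
          Q'.ord (IntermediateField.inclusion hle₀ x) = (e : ℤ) * Q.ord x)
    (hε' : ∀ Q' : Place (IsLocalRing.ResidueField A)
        (modularFunctionFieldFullC (IsLocalRing.ResidueField A) D'.R),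
      0 < Q'.ord ((kpS D' A hq' hA' hqR').red (fwU D')) →
        ¬ (D'.Q : ℤ) ∣ Q'.ord ((kpS D' A hq' hA' hqR').red (fwU D')))
    (g : FBar (D.Q * D.R))
    (h' : spSlopeInt D' A hq' hA' hqR' (IntermediateField.inclusion hle g)) :
    spSlopeInt D A hq hA hqR g := by
  intro r hr i j
  have hr' := auxDesc_isRedInf D A hq hA hqR D' hq' hA' hqR' hle hle₀ hr
  have hu := auxDesc_red_fwU D A hq hA hqR D' hq' hA' hqR' hQ hle₀
  obtain ⟨Qi, ei, hei, hordi⟩ := hPU i.1
  obtain ⟨Qj, ej, hej, hordj⟩ := hPU j.1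
  have hεi := auxDesc_kpEps_cast D A hq hA hqR i
  have hεj := auxDesc_kpEps_cast D A hq hA hqR j
  have hposi : (0 : ℤ) < (kpEps D A hq hA hqR i : ℤ) := by
    exact_mod_cast auxDesc_kpEps_pos D A hq hA hqR i
  have hposj : (0 : ℤ) < (kpEps D A hq hA hqR j : ℤ) := by
    exact_mod_cast auxDesc_kpEps_pos D A hq hA hqR j
  have hei' : (0 : ℤ) < (ei : ℤ) := by exact_mod_cast hei
  have hej' : (0 : ℤ) < (ej : ℤ) := by exact_mod_cast hej
  -- the orders of `ū'` at the places above
  have hui : Qi.ord ((kpS D' A hq' hA' hqR').red (fwU D')) =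
      (ei : ℤ) * (kpEps D A hq hA hqR i : ℤ) := by
    rw [hu, hordi, hεi]
  have huj : Qj.ord ((kpS D' A hq' hA' hqR').red (fwU D')) =
      (ej : ℤ) * (kpEps D A hq hA hqR j : ℤ) := by
    rw [hu, hordj, hεj]
  have hi' : 0 < Qi.ord ((kpS D' A hq' hA' hqR').red (fwU D')) := by
    rw [hui]
    exact mul_pos hei' hposi
  have hj' : 0 < Qj.ord ((kpS D' A hq' hA' hqR').red (fwU D')) := by
    rw [huj]
    exact mul_pos hej' hposj
  -- the nodes above
  obtain ⟨i', hi'e⟩ : ∃ i' : kpIota D' A hq' hA' hqR', i'.1 = Qi := ⟨⟨Qi, hi'⟩, rfl⟩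
  obtain ⟨j', hj'e⟩ : ∃ j' : kpIota D' A hq' hA' hqR', j'.1 = Qj := ⟨⟨Qj, hj'⟩, rfl⟩
  have key := h' _ hr' i' j'
  have hεi' : (kpEps D' A hq' hA' hqR' i' : ℤ) = (ei : ℤ) * (kpEps D A hq hA hqR i : ℤ) := by
    rw [auxDesc_kpEps_cast D' A hq' hA' hqR' i', hi'e, hui]
  have hεj' : (kpEps D' A hq' hA' hqR' j' : ℤ) = (ej : ℤ) * (kpEps D A hq hA hqR j : ℤ) := by
    rw [auxDesc_kpEps_cast D' A hq' hA' hqR' j', hj'e, huj]
  rw [hεi', hεj', hi'e, hj'e, hordi, hordj] at key
  -- `p ∤ e`
  have hp : Prime (D'.Q : ℤ) := Nat.prime_iff_prime_int.mp hq'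
  have hpi : ¬ (D'.Q : ℤ) ∣ (ei : ℤ) := fun hd =>
    hε' Qi hi' (by rw [hui]; exact Dvd.dvd.mul_right hd _)
  have hpj : ¬ (D'.Q : ℤ) ∣ (ej : ℤ) := fun hd =>
    hε' Qj hj' (by rw [huj]; exact Dvd.dvd.mul_right hd _)
  have hQZ : (D.Q : ℤ) = (D'.Q : ℤ) := by rw [hQ]
  rw [hQZ]
  have e2 : (ej : ℤ) * (kpEps D A hq hA hqR j : ℤ) * ((ei : ℤ) * i.1.ord r) -
      (ei : ℤ) * (kpEps D A hq hA hqR i : ℤ) * ((ej : ℤ) * j.1.ord r) =
      (ei : ℤ) * ((ej : ℤ) * ((kpEps D A hq hA hqR j : ℤ) * i.1.ord r -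
        (kpEps D A hq hA hqR i : ℤ) * j.1.ord r)) := by ring
  have key2 : (D'.Q : ℤ) ∣ (ei : ℤ) * ((ej : ℤ) * ((kpEps D A hq hA hqR j : ℤ) * i.1.ord r -
      (kpEps D A hq hA hqR i : ℤ) * j.1.ord r)) := by
    rw [← e2]
    exact key
  exact ((hp.dvd_or_dvd ((hp.dvd_or_dvd key2).resolve_left hpi)).resolve_left hpj)

/-- **AUX-DESC**: (INT) at the auxiliary level `p R'` for `α g` implies (INT) at level `p R` for
`g` (`R ∣ R'`), provided `p ∤ ε'` at the nodes of level `p R'` (P-eps at `D'`). -/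
theorem r38_auxDesc (hQ : D'.Q = D.Q) (hR : D.R ∣ D'.R)
    (hε' : ∀ Q' : Place (IsLocalRing.ResidueField A)
        (modularFunctionFieldFullC (IsLocalRing.ResidueField A) D'.R),
      0 < Q'.ord ((kpS D' A hq' hA' hqR').red (fwU D')) →
        ¬ (D'.Q : ℤ) ∣ Q'.ord ((kpS D' A hq' hA' hqR').red (fwU D')))
    (hle : modularFunctionFieldBar (D.Q * D.R) ≤ modularFunctionFieldBar (D'.Q * D'.R))
    (g : FBar (D.Q * D.R))
    (h' : spSlopeInt D' A hq' hA' hqR' (IntermediateField.inclusion hle g)) :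
    spSlopeInt D A hq hA hqR g :=
  haveI := Fermat.Agent.GaussInt.isAlgClosed_residue A
  r38_auxDesc_of_placeUp D A hq hA hqR D' hq' hA' hqR' hQ hle
    (r38_fullC_le_of_dvd (IsLocalRing.ResidueField A) hR)
    (fun Q => r38_placeUp (IsLocalRing.ResidueField A)
      (r38_fullC_le_of_dvd (IsLocalRing.ResidueField A) hR)
      (kpS D A hq hA hqR).hFk (kpS D' A hq' hA' hqR').hFk Q) hε' g h'

end Fermat.Agent.R38
end
end MergeWrap_R38_P_AuxDesc

section MergeWrap_R38_P_AuxDescFinal -- from R38/P/AuxDescFinal.lean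

set_option autoImplicit false
set_option linter.style.haveILetI false
set_option linter.unusedSectionVars false
set_option linter.unusedVariables false
set_option synthInstance.maxHeartbeats 400000
set_option maxHeartbeats 1000000

noncomputable section

namespace Fermat.Agent.R38

open ModularCurve AlgebraicCurve Fermat.Agent.F3 Fermat.Agent.F3G
  Fermat.Agent.GaussInt Fermat.Agent.AtkinLehner Fermat.Agent.Deuring Fermat.Agent.RR
  Fermat.Agent.BadRed Fermat.Agent.EKp

local notation "Qb" => AlgebraicClosure ℚ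

/-- **AUX-DESC** (unconditional, `p ≥ 5`): (INT) at the auxiliary level `p R'` for `α g` implies
(INT) at level `p R` for `g`. -/
theorem r38_spAuxDesc
    (D : ALData) [NeZero D.Q] [NeZero D.R] [NeZero (D.Q * D.R)]
    (A : ValuationSubring Qb) (hq : D.Q.Prime) (hA : A.LiesOverPrime D.Q) (hqR : ¬ D.Q ∣ D.R)
    [Fact D.Q.Prime] [CharP (IsLocalRing.ResidueField A) D.Q]
    [PerfectRing (IsLocalRing.ResidueField A) D.Q]
    (D' : ALData) [NeZero D'.Q] [NeZero D'.R] [NeZero (D'.Q * D'.R)]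
    (hq' : D'.Q.Prime) (hA' : A.LiesOverPrime D'.Q) (hqR' : ¬ D'.Q ∣ D'.R)
    [Fact D'.Q.Prime] [CharP (IsLocalRing.ResidueField A) D'.Q]
    [PerfectRing (IsLocalRing.ResidueField A) D'.Q]
    (h5 : 5 ≤ D.Q) (hQ : D'.Q = D.Q) (hR : D.R ∣ D'.R)
    (hle : modularFunctionFieldBar (D.Q * D.R) ≤ modularFunctionFieldBar (D'.Q * D'.R))
    (g : FBar (D.Q * D.R))
    (h' : spSlopeInt D' A hq' hA' hqR' (IntermediateField.inclusion hle g)) :
    spSlopeInt D A hq hA hqR g :=
  r38_auxDesc D A hq hA hqR D' hq' hA' hqR' hQ hR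
    (fun Q' hQ' => r38_not_dvd_ord_red_u D' A hq' hA' hqR' (by rw [hQ]; exact h5) Q' hQ')
    hle g h'

end Fermat.Agent.R38
end
end MergeWrap_R38_P_AuxDescFinal

section MergeWrap_R38_D_Pull -- from R38/D/Pull.lean

set_option autoImplicit false
set_option linter.unusedVariables false
set_option linter.unusedSectionVars false
set_option linter.style.haveILetI false
set_option synthInstance.maxHeartbeats 400000
set_option maxHeartbeats 1000000

noncomputable section

namespace Fermat.Agent.R38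

open ModularCurve AlgebraicCurve Fermat.Agent.F3 Fermat.Agent.F3G Fermat.Agent.F3I2
  Fermat.Agent.F3T Fermat.Agent.AtkinLehner Fermat.Agent.FF Fermat.Agent.BadRed Fermat.Agent.EKp

local notation "Qb" => AlgebraicClosure ℚ
local notation "GQ" => (AlgebraicClosure ℚ ≃ₐ[ℚ] AlgebraicClosure ℚ)

/-- the auxiliary Atkin–Lehner datum of level `Q · 4R` (`Q` unchanged, definitionally). -/
def r38AuxData (D : ALData) (h : Nat.Coprime D.Q (4 * D.R)) : ALData where
  Q := D.Q
  R := 4 * D.R
  a := Int.gcdA D.Q ((4 * D.R : ℕ) : ℤ)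
  b := - Int.gcdB D.Q ((4 * D.R : ℕ) : ℤ)
  hQ := D.hQ
  hR := Nat.mul_pos (by norm_num) D.hR
  hdet := by
    have hg : Int.gcd (D.Q : ℤ) ((4 * D.R : ℕ) : ℤ) = 1 := by
      rw [Int.gcd_natCast_natCast]
      exact h
    have hb := Int.gcd_eq_gcd_ab (D.Q : ℤ) ((4 * D.R : ℕ) : ℤ)
    rw [hg] at hb
    push_cast at hb ⊢
    linarith

@[simp] theorem r38AuxData_Q (D : ALData) (h : Nat.Coprime D.Q (4 * D.R)) :
    (r38AuxData D h).Q = D.Q := rfl

@[simp] theorem r38AuxData_R (D : ALData) (h : Nat.Coprime D.Q (4 * D.R)) :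
    (r38AuxData D h).R = 4 * D.R := rfl

/-- `p ≥ 5` prime, `p ∤ R` ⟹ `p` is prime to `4 R`. -/
theorem r38_coprime_four_mul {p R : ℕ} (hp : p.Prime) (h5 : 5 ≤ p) (hpR : ¬ p ∣ R) :
    Nat.Coprime p (4 * R) := by
  rw [Nat.Prime.coprime_iff_not_dvd hp]
  intro h
  rcases (Nat.Prime.dvd_mul hp).mp h with h4 | hR
  · have := Nat.le_of_dvd (by norm_num) h4
    omega
  · exact hpR hR

/-- **PULL** (block D of row 38): J-D at the auxiliary levels implies J-D. -/
theorem spDPull : SpDPull := by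
  intro haux D _ _ _ A hq hA hqR _ _ _ h5 S a y hnew hkum hunip E g hg
  have hcop : Nat.Coprime D.Q (4 * D.R) := r38_coprime_four_mul hq h5 hqR
  set D' : ALData := r38AuxData D hcop with hD'
  have hQ' : D'.Q = D.Q := rfl
  have hR' : D.R ∣ D'.R := Dvd.intro_left 4 rfl
  haveI : NeZero D'.Q := ⟨D'.hQ.ne'⟩
  haveI : NeZero D'.R := ⟨D'.hR.ne'⟩
  haveI : NeZero (D'.Q * D'.R) := ⟨(Nat.mul_pos D'.hQ D'.hR).ne'⟩
  have hq' : D'.Q.Prime := hq
  have hA' : A.LiesOverPrime D'.Q := hA
  have hqR' : ¬ D'.Q ∣ D'.R := fun h => (Nat.Prime.coprime_iff_not_dvd hq).mp hcop h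
  haveI : Fact D'.Q.Prime := ⟨hq'⟩
  haveI : CharP (IsLocalRing.ResidueField A) D'.Q := ‹CharP (IsLocalRing.ResidueField A) D.Q›
  haveI : PerfectRing (IsLocalRing.ResidueField A) D'.Q :=
    ‹PerfectRing (IsLocalRing.ResidueField A) D.Q›
  have hle : modularFunctionFieldBar (D.Q * D.R) ≤ modularFunctionFieldBar (D'.Q * D'.R) :=
    r38_fbar_le_of_dvd (r38_level_dvd D D' hQ' hR')
  obtain ⟨E', hg'⟩ := r38PullJ_isKumGen D D' hQ' hR' hle D.Q hg
  have h1 := haux D' A hq' hA' hqR' h5 (Dvd.intro D.R rfl) (r38PullJ D D' hQ' hR' y)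
    (r38PullJ_nsmul_eq_zero D D' hQ' hR' D.Q hnew.1) (r38PullJ_spKumStab D D' hQ' hR' D.Q A hkum)
    (r38PullJ_spUnip D D' hQ' hR' D.Q A hunip) E' _ hg'
  exact r38_spAuxDesc D A hq hA hqR D' hq' hA' hqR' h5 hQ' hR' hle g h1

end Fermat.Agent.R38
end
end MergeWrap_R38_D_Pull
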